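import Fermat.Agent.DS.Defs

/-!
# Complex matrices of finite order, reductions of algebraic integers

Traces and determinants of matrices of order dividing `m` lie in `rootSums m`; large primes
separate finitely many algebraic integers.
-/

set_option autoImplicit false

noncomputable section

open Matrix

namespace Fermat.DS

/-- The possible traces and determinants of matrices of order dividing `m`. -/
def rootSums (m : ℕ) : Finset ℂ :=
  ((Polynomial.nthRootsFinset m (1 : ℂ)) ×ˢ (Polynomial.nthRootsFinset m (1 : ℂ))).image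
    (fun x => x.1 + x.2) ∪ Polynomial.nthRootsFinset m (1 : ℂ)

/-- The trace and the determinant of a complex matrix of order dividing `m` are sums of `m`-th
roots of unity. -/
theorem trace_det_mem_rootSums {U : Matrix (Fin 2) (Fin 2) ℂ} {m : ℕ} (hm : 0 < m)
    (hU : U ^ m = 1) :
    U.trace ∈ rootSums m ∧ U.det ∈ rootSums m := by
  classical
  have hroot : ∀ μ ∈ U.charpoly.roots, μ ∈ Polynomial.nthRootsFinset m (1 : ℂ) := fun μ hμ => by
    have h1 : μ ∈ spectrum ℂ U :=
      Matrix.mem_spectrum_iff_isRoot_charpoly.mpr (Polynomial.isRoot_of_mem_roots hμ)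
    have h2 := spectrum.pow_mem_pow U m h1
    rw [hU, spectrum.one_eq, Set.mem_singleton_iff] at h2
    exact (Polynomial.mem_nthRootsFinset hm 1).mpr h2
  have hcard : Multiset.card U.charpoly.roots = 2 := by
    rw [← (IsAlgClosed.splits U.charpoly).natDegree_eq_card_roots,
      Matrix.charpoly_natDegree_eq_dim, Fintype.card_fin]
  obtain ⟨a, b, hab⟩ := Multiset.card_eq_two.mp hcard
  have ha := hroot a (by simp [hab])
  have hb := hroot b (by simp [hab])
  refine ⟨Finset.mem_union_left _ (Finset.mem_image.mpr ⟨(a, b),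
    Finset.mem_product.mpr ⟨ha, hb⟩, ?_⟩), Finset.mem_union_right _ ?_⟩
  · rw [Matrix.trace_eq_sum_roots_charpoly, hab]
    simp
  · rw [Matrix.det_eq_prod_roots_charpoly, hab]
    refine (Polynomial.mem_nthRootsFinset hm 1).mpr ?_
    simp [mul_pow, (Polynomial.mem_nthRootsFinset hm 1).mp ha,
      (Polynomial.mem_nthRootsFinset hm 1).mp hb]

/-- The possible traces and determinants are algebraic integers. -/
theorem isIntegral_of_mem_rootSums {m : ℕ} (hm : 0 < m) {x : ℂ} (hx : x ∈ rootSums m) :
    IsIntegral ℤ x := by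
  classical
  have h : ∀ y ∈ Polynomial.nthRootsFinset m (1 : ℂ), IsIntegral ℤ y := fun y hy =>
    IsIntegral.of_pow hm ((Polynomial.mem_nthRootsFinset hm 1).mp hy ▸ isIntegral_one)
  rcases Finset.mem_union.mp hx with hx | hx
  · obtain ⟨⟨a, b⟩, hab, rfl⟩ := Finset.mem_image.mp hx
    obtain ⟨ha, hb⟩ := Finset.mem_product.mp hab
    exact (h a ha).add (h b hb)
  · exact h x hx

/-- **A matrix of finite order with both eigenvalues `1` is the identity.** -/
theorem eq_one_of_finite_order {U : Matrix (Fin 2) (Fin 2) ℂ} {m : ℕ} (hm : 0 < m) (hU : U ^ m = 1)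
    (ht : U.trace = 2) (hd : U.det = 1) : U = 1 := by
  have hsq : (U - 1) * (U - 1) = 0 := by
    rw [trace_fin_two] at ht
    rw [det_fin_two] at hd
    ext i j
    fin_cases i <;> fin_cases j <;> simp [Matrix.mul_apply, Fin.sum_univ_two]
    · linear_combination (U 0 0) * ht - hd
    · linear_combination (U 0 1) * ht
    · linear_combination (U 1 0) * ht
    · linear_combination (U 1 1) * ht - hd
  have hpow : ∀ n : ℕ, U ^ n = 1 + (n : ℂ) • (U - 1) := by
    intro n
    induction n with
    | zero => simp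
    | succ n ih =>
      rw [pow_succ, ih]
      nth_rw 2 [show U = 1 + (U - 1) by abel]
      rw [add_mul, mul_add, smul_mul_assoc, mul_add, hsq, one_mul, one_mul, mul_one, add_zero,
        Nat.cast_succ, add_smul, one_smul]
      abel
  have h := hpow m
  rw [hU, left_eq_add] at h
  exact sub_eq_zero.mp ((smul_eq_zero.mp h).resolve_left (Nat.cast_ne_zero.mpr hm.ne'))

/-- **A nonzero algebraic integer has nonzero reduction at all large primes.** -/
theorem exists_bound_red_ne_zero {x : integralClosure ℤ ℂ} (hx : x ≠ 0) :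
    ∃ B : ℕ, ∀ (l : ℕ) [Fact l.Prime], B < l →
      ∀ red : integralClosure ℤ ℂ →+* AlgebraicClosure (ZMod l), red x ≠ 0 := by
  have hi : IsIntegral ℤ (x : ℂ) := x.2
  set c := (minpoly ℤ (x : ℂ)).coeff 0
  have hc : c ≠ 0 := fun hc0 => by
    have h1 := minpoly.coeff_zero_ne_zero (A := ℚ) (hi.tower_top (A := ℚ)) fun h =>
      hx (Subtype.ext h)
    rw [minpoly.isIntegrallyClosed_eq_field_fractions' ℚ hi, Polynomial.coeff_map] at h1
    exact h1 (by rw [show (minpoly ℤ (x : ℂ)).coeff 0 = 0 from hc0, map_zero])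
  refine ⟨c.natAbs, fun l _ hl red h0 => ?_⟩
  have hz : Polynomial.eval₂ (algebraMap ℤ (integralClosure ℤ ℂ)) x (minpoly ℤ (x : ℂ)) = 0 := by
    refine Subtype.ext ?_
    have := Polynomial.hom_eval₂ (minpoly ℤ (x : ℂ)) (algebraMap ℤ (integralClosure ℤ ℂ))
      (integralClosure ℤ ℂ).val.toRingHom x
    exact this.trans (minpoly.aeval ℤ (x : ℂ))
  have h := congrArg red hz
  rw [map_zero, Polynomial.hom_eval₂, h0, Polynomial.eval₂_at_zero,
    RingHom.ext_int (red.comp _) (Int.castRingHom _), eq_intCast] at h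
  have := Int.natAbs_dvd_natAbs.mpr
    ((CharP.intCast_eq_zero_iff (AlgebraicClosure (ZMod l)) l _).mp h)
  rw [Int.natAbs_natCast] at this
  exact absurd (Nat.le_of_dvd (Int.natAbs_pos.mpr hc) this) (not_le.mpr hl)

/-- **Large primes separate finitely many algebraic integers.** -/
theorem exists_bound_red_injOn (Y : Finset (integralClosure ℤ ℂ)) :
    ∃ B : ℕ, ∀ (l : ℕ) [Fact l.Prime], B < l →
      ∀ red : integralClosure ℤ ℂ →+* AlgebraicClosure (ZMod l),
        ∀ x ∈ Y, ∀ y ∈ Y, red x = red y → x = y := by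
  classical
  choose B hB using fun x : {x : integralClosure ℤ ℂ // x ≠ 0} => exists_bound_red_ne_zero x.2
  refine ⟨(Y ×ˢ Y).sup fun p => if h : p.1 - p.2 = 0 then 0 else B ⟨_, h⟩,
    fun l _ hl red x hx y hy e => ?_⟩
  by_contra hne
  have h0 : x - y ≠ 0 := sub_ne_zero.mpr hne
  refine hB ⟨_, h0⟩ l (lt_of_le_of_lt ?_ hl) red (by rw [map_sub, e, sub_self])
  refine le_trans ?_ (Finset.le_sup (f := fun p : integralClosure ℤ ℂ × integralClosure ℤ ℂ =>
    if h : p.1 - p.2 = 0 then 0 else B ⟨_, h⟩) (Finset.mem_product.mpr (⟨hx, hy⟩ : (x, y).1 ∈ Y ∧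
      (x, y).2 ∈ Y)))
  simp only [dif_neg h0, le_refl]

end Fermat.DS

end
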