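import Fermat.Agent.DS.Main.Density
import Fermat.Agent.DS.Rankin.Main
import Fermat.Prelude.Def_Deformations_MatrixRepresentation

/-!
# Irreducibility

A reducible representation has `|trace|²` of mean at least `2`, against the bound of Rankin.
-/

set_option autoImplicit false

noncomputable section

open Filter Topology CongruenceSubgroup ModularFormClass Matrix
open scoped MatrixGroups ComplexConjugate

namespace Fermat.DS

open Fermat.CFT

local notation "ℚbar" => AlgebraicClosure ℚ
local notation "Γℚ" => (AlgebraicClosure ℚ ≃ₐ[ℚ] AlgebraicClosure ℚ)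

/-- Two characters of a finite group: the mean of `|a + b|²` is at least `2`. -/
theorem two_mul_card_le_sum {G : Type*} [Group G] [Fintype G] (a b : G →* ℂ) :
    2 * (Fintype.card G : ℝ) ≤ ∑ g, ‖a g + b g‖ ^ 2 := by
  classical
  have hnorm : ∀ (χ : G →* ℂ) g, ‖χ g‖ = 1 := fun χ g =>
    Complex.norm_eq_one_of_pow_eq_one (n := Fintype.card G)
      (by rw [← map_pow, pow_card_eq_one, map_one]) Fintype.card_ne_zero
  let η : G →* ℂ :=
    { toFun := fun g => a g * conj (b g)
      map_one' := by simp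
      map_mul' := fun g h => by rw [map_mul, map_mul, map_mul]; ring }
  have hη : 0 ≤ (∑ g, η g).re := by
    rcases eq_or_ne η 1 with h | h
    · simp [h]
    · obtain ⟨g₀, hg₀⟩ : ∃ g₀, η g₀ ≠ 1 := by
        by_contra hne
        push Not at hne
        exact h (MonoidHom.ext hne)
      have e : η g₀ * ∑ g, η g = ∑ g, η g := by
        rw [Finset.mul_sum]
        exact Fintype.sum_bijective _ (Group.mulLeft_bijective g₀) _ _ fun g =>
          (map_mul η g₀ g).symm
      have h0 : (η g₀ - 1) * ∑ g, η g = 0 := by rw [sub_mul, one_mul, e, sub_self]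
      rw [(mul_eq_zero.mp h0).resolve_left (sub_ne_zero.mpr hg₀), Complex.zero_re]
  have hexp : ∀ g, ‖a g + b g‖ ^ 2 = 2 + 2 * (η g).re := fun g => by
    have ha := hnorm a g
    have hb := hnorm b g
    have ha2 : Complex.normSq (a g) = 1 := by rw [Complex.normSq_eq_norm_sq, ha, one_pow]
    have hb2 : Complex.normSq (b g) = 1 := by rw [Complex.normSq_eq_norm_sq, hb, one_pow]
    rw [← Complex.normSq_eq_norm_sq, Complex.normSq_add, ha2, hb2]
    change 1 + 1 + 2 * (a g * conj (b g)).re = 2 + 2 * (a g * conj (b g)).re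
    ring
  rw [Finset.sum_congr rfl fun g _ => hexp g, Finset.sum_add_distrib, Finset.sum_const,
    Finset.card_univ, nsmul_eq_mul, ← Finset.mul_sum, ← Complex.re_sum]
  nlinarith

/-- A two dimensional representation which is not irreducible has a common eigenvector. -/
theorem exists_eigen_of_not_irreducible {G : Type} [Group G] (R : G →* GL (Fin 2) ℂ)
    (h : ¬ (Deformation.matrixRepresentation R).IsIrreducible) :
    ∃ v : Fin 2 → ℂ, v ≠ 0 ∧
      ∀ g, ∃ c : ℂ, (R g : Matrix (Fin 2) (Fin 2) ℂ) *ᵥ v = c • v := by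
  by_contra hne
  push Not at hne
  refine h ?_
  have : Nontrivial (Subrepresentation (Deformation.matrixRepresentation R)) := by
    refine ⟨⊥, ⊤, fun e => ?_⟩
    exact bot_ne_top (α := Submodule ℂ (Fin 2 → ℂ)) (congrArg Subrepresentation.toSubmodule e)
  refine ⟨fun W => ?_⟩
  -- let `W` be stable and nonzero
  by_cases h0 : W.toSubmodule = ⊥
  · exact Or.inl (Subrepresentation.toSubmodule_injective h0)
  refine Or.inr (Subrepresentation.toSubmodule_injective ?_)
  change W.toSubmodule = ⊤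
  -- a vector of `W` which is moved off its line spans with its image
  obtain ⟨v, hvW, hv⟩ := Submodule.exists_mem_ne_zero_of_ne_bot h0
  obtain ⟨g, hg⟩ := hne v hv
  refine Submodule.eq_top_of_finrank_eq ?_
  rw [Module.finrank_fin_fun]
  refine le_antisymm ((Submodule.finrank_le _).trans (le_of_eq (Module.finrank_fin_fun ℂ))) ?_
  have hwW : (R g : Matrix (Fin 2) (Fin 2) ℂ) *ᵥ v ∈ W.toSubmodule := by
    have h1 := W.apply_mem_toSubmodule g hvW
    rwa [Deformation.matrixRepresentation_apply] at h1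
  have hind : LinearIndependent ℂ ![v, (R g : Matrix (Fin 2) (Fin 2) ℂ) *ᵥ v] := by
    rw [linearIndependent_fin2]
    refine ⟨fun e => ?_, fun c e => ?_⟩
    · exact hg 0 (by simpa using e)
    · simp only [Matrix.cons_val_zero, Matrix.cons_val_one] at e
      rcases eq_or_ne c 0 with rfl | hc
      · rw [zero_smul] at e; exact hv e.symm
      · exact hg c⁻¹ (by rw [← e, smul_smul, inv_mul_cancel₀ hc, one_smul]; exact e.symm ▸ rfl)
  have hspan : Submodule.span ℂ (Set.range ![v, (R g : Matrix (Fin 2) (Fin 2) ℂ) *ᵥ v]) ≤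
      W.toSubmodule := by
    rw [Submodule.span_le]
    rintro _ ⟨i, rfl⟩
    fin_cases i
    · exact hvW
    · exact hwW
  calc (2 : ℕ) = Module.finrank ℂ
          (Submodule.span ℂ (Set.range ![v, (R g : Matrix (Fin 2) (Fin 2) ℂ) *ᵥ v])) := by
        rw [finrank_span_eq_card hind, Fintype.card_fin]
    _ ≤ _ := Submodule.finrank_mono hspan

/-- A group of matrices with a common eigenvector has its trace the sum of two characters. -/
private theorem exists_characters_of_eigen {G : Subgroup (GL (Fin 2) ℂ)}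
    {v : Fin 2 → ℂ} (hv : v ≠ 0)
    (hline : ∀ g : G, ∃ c : ℂ, ((g.1 : GL (Fin 2) ℂ) : Matrix (Fin 2) (Fin 2) ℂ) *ᵥ v = c • v) :
    ∃ aH bH : G →* ℂ, ∀ g : G,
      ((g.1 : GL (Fin 2) ℂ) : Matrix (Fin 2) (Fin 2) ℂ).trace = aH g + bH g := by
  choose a ha using hline
  have hinj : ∀ c c' : ℂ, c • v = c' • v → c = c' := fun c c' e => smul_left_injective ℂ hv e
  let aH : G →* ℂ :=
    { toFun := a
      map_one' := hinj _ _ (by rw [← ha, OneMemClass.coe_one, Units.val_one, one_mulVec, one_smul])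
      map_mul' := fun g g' => hinj _ _ (by
        rw [← ha, Subgroup.coe_mul, Units.val_mul, ← mulVec_mulVec, ha, mulVec_smul, ha, smul_smul,
          mul_comm]) }
  have ha0 : ∀ g, a g ≠ 0 := fun g e => by
    have h := map_mul aH g g⁻¹
    rw [mul_inv_cancel, map_one] at h
    exact one_ne_zero (h.trans (by rw [show aH g = 0 from e, zero_mul]))
  let bH : G →* ℂ :=
    { toFun := fun g => ((g.1 : GL (Fin 2) ℂ) : Matrix (Fin 2) (Fin 2) ℂ).det * (a g)⁻¹
      map_one' := by
        rw [show a 1 = 1 from map_one aH]; simp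
      map_mul' := fun g g' => by
        rw [show a (g * g') = a g * a g' from map_mul aH g g', Subgroup.coe_mul, Units.val_mul,
          det_mul, mul_inv]
        ring }
  have htrace : ∀ g : G, ((g.1 : GL (Fin 2) ℂ) : Matrix (Fin 2) (Fin 2) ℂ).trace = aH g + bH g := by
    intro g
    set U : Matrix (Fin 2) (Fin 2) ℂ := ((g.1 : GL (Fin 2) ℂ) : Matrix (Fin 2) (Fin 2) ℂ)
    have h0 : (U - a g • (1 : Matrix (Fin 2) (Fin 2) ℂ)).det = 0 :=
      Matrix.exists_mulVec_eq_zero_iff.mp
        ⟨v, hv, by rw [sub_mulVec, smul_mulVec, one_mulVec, ha, sub_self]⟩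
    rw [det_fin_two] at h0
    simp [Matrix.sub_apply, Matrix.smul_apply] at h0
    change U.trace = a g + U.det * (a g)⁻¹
    rw [trace_fin_two, det_fin_two]
    have := ha0 g
    field_simp
    linear_combination -h0
  exact ⟨aH, bH, htrace⟩

/-- A mean grouped by the values taken. -/
private theorem sum_image_mul_proportion {G : Type*} [Fintype G] (t : G → ℝ) :
    ∑ w ∈ Finset.univ.image t, w * ((Nat.card {x : G // t x = w} : ℝ) / (Fintype.card G : ℝ))
      = (∑ g, t g) / (Fintype.card G : ℝ) := by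
  classical
  rw [Finset.sum_div]
  rw [← Finset.sum_fiberwise_of_maps_to (g := t) (t := Finset.univ.image t)
    fun g _ => Finset.mem_image.mpr ⟨g, Finset.mem_univ g, rfl⟩]
  refine Finset.sum_congr rfl fun w _ => ?_
  rw [Finset.sum_congr rfl fun g hg => by rw [(Finset.mem_filter.mp hg).2], Finset.sum_const,
    nsmul_eq_mul, Nat.card_eq_fintype_card, Fintype.card_subtype]
  ring

/-- The indicator series of the values of `t ∘ R`, weighted by the values, are bounded by the
series of these values at the primes not dividing `N`. -/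
private theorem sum_mul_primeSum_repInd_le {N : ℕ} [NeZero N] (R : Γℚ →* GL (Fin 2) ℂ)
    (t : GL (Fin 2) ℂ → ℝ) (a : Nat.Primes → ℝ) (ha : ∀ p, 0 ≤ a p)
    (hta : ∀ p : Nat.Primes, ¬ (p : ℕ) ∣ N → ∀ (A : ValuationSubring ℚbar) (σ : Γℚ),
      A.LiesOverPrime (p : ℕ) → A.IsFrobeniusAt σ (p : ℕ) → t (R σ) = a p)
    {V : Finset ℝ} (hV0 : ∀ w ∈ V, 0 ≤ w) {s K : ℝ} (hs : 1 < s)
    (hK : ∀ P : Finset Nat.Primes, (∀ p ∈ P, ¬ (p : ℕ) ∣ N) →
      ∑ p ∈ P, a p * ((p : ℕ) : ℝ) ^ (-s) ≤ K) :
    ∑ w ∈ V, w * primeSum (repInd R fun x => t x = w) s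
      ≤ K + (∑ w ∈ V, w) * N.primeFactors.card := by
  classical
  set W : ℝ := ∑ w ∈ V, w
  have hsummable : ∀ w : ℝ, Summable fun p : Nat.Primes =>
      w * (repInd R (fun x => t x = w) p * ((p : ℕ) : ℝ) ^ (-s)) := fun w =>
    (summable_primeSum (abs_repInd_le _ _) hs).mul_left w
  simp only [primeSum, ← tsum_mul_left]
  rw [← Summable.tsum_finsetSum fun w _ => hsummable w]
  -- a finite partial sum, split at the primes of `N`
  refine (summable_sum fun w _ => hsummable w).tsum_le_of_sum_le fun P => ?_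
  rw [← Finset.sum_filter_add_sum_filter_not P (fun p : Nat.Primes => ¬ (p : ℕ) ∣ N)]
  refine add_le_add ((Finset.sum_le_sum fun p hp => ?_).trans
    (hK _ fun p hp => (Finset.mem_filter.mp hp).2)) ?_
  -- off `N` only the weight `a p` occurs
  · have hpN : ¬ (p : ℕ) ∣ N := (Finset.mem_filter.mp hp).2
    simp only [← mul_assoc]
    rw [← Finset.sum_mul]
    refine mul_le_mul_of_nonneg_right ?_ (Real.rpow_nonneg (Nat.cast_nonneg _) _)
    have hz : ∀ w ∈ V, w ≠ a p → w * repInd R (fun x => t x = w) p = 0 := fun w _ hw => by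
      rw [repInd, if_neg, mul_zero]
      rintro ⟨A, σ, hA, hσ, e⟩
      exact hw (e.symm.trans (hta p hpN A σ hA hσ))
    by_cases hmem : a p ∈ V
    · rw [Finset.sum_eq_single_of_mem (a p) hmem hz]
      exact mul_le_of_le_one_right (ha p) ((le_abs_self _).trans (abs_repInd_le _ _ _))
    · rw [Finset.sum_eq_zero fun w hw => hz w hw fun e => hmem (e ▸ hw)]
      exact ha p
  -- at each prime of `N` at most the sum of all weights
  · refine (Finset.sum_le_card_nsmul _ _ W fun p _ => ?_).trans ?_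
    · refine Finset.sum_le_sum fun w hw => ?_
      have hp : (0 : ℝ) ≤ ((p : ℕ) : ℝ) ^ (-s) := Real.rpow_nonneg (Nat.cast_nonneg _) _
      have hp1 : ((p : ℕ) : ℝ) ^ (-s) ≤ 1 :=
        Real.rpow_le_one_of_one_le_of_nonpos (by exact_mod_cast p.2.one_le) (by linarith)
      exact mul_le_of_le_one_right (hV0 w hw) (mul_le_one₀
        ((le_abs_self _).trans (abs_repInd_le _ _ _)) hp hp1)
    · rw [nsmul_eq_mul, mul_comm]
      refine mul_le_mul_of_nonneg_left (Nat.cast_le.mpr (Finset.card_le_card_of_injOn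
        (fun p : Nat.Primes => (p : ℕ)) (fun p hp => ?_) Subtype.val_injective.injOn))
        (Finset.sum_nonneg hV0)
      exact Nat.mem_primeFactors.mpr
        ⟨p.2, not_not.mp (Finset.mem_filter.mp hp).2, NeZero.ne _⟩

/-- **Irreducibility:** a representation of finite level with the traces of a weight one
eigenform is irreducible. -/
theorem isIrreducible_of_trace {N : ℕ} [NeZero N] {ε : DirichletCharacter ℂ N}
    {f : CuspForm (Gamma1 N) 1} (hf : IsWeightOneEigen ε f) (R : Γℚ →* GL (Fin 2) ℂ)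
    (hR : GaloisFactorsThroughFiniteLevel R)
    (htr : ∀ p : ℕ, p.Prime → ¬ p ∣ N → ∀ A : ValuationSubring ℚbar, A.LiesOverPrime p →
      ∀ σ : Γℚ, A.IsFrobeniusAt σ p →
        (R σ : Matrix (Fin 2) (Fin 2) ℂ).trace = qCoeff f p) :
    (Deformation.matrixRepresentation R).IsIrreducible := by
  classical
  by_contra hirr
  obtain ⟨v, hv, hline⟩ := exists_eigen_of_not_irreducible R hirr
  have := finite_range R hR
  have := Fintype.ofFinite R.range
  have hline' : ∀ g : R.range, ∃ c : ℂ,
      ((g.1 : GL (Fin 2) ℂ) : Matrix (Fin 2) (Fin 2) ℂ) *ᵥ v = c • v := fun g => by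
    obtain ⟨σ, hσ⟩ := g.2
    exact hσ ▸ hline σ
  obtain ⟨aH, bH, htrace⟩ := exists_characters_of_eigen hv hline'
  -- the values of the squares of the traces
  let sq : GL (Fin 2) ℂ → ℝ := fun x => ‖(x : Matrix (Fin 2) (Fin 2) ℂ).trace‖ ^ 2
  have hsqconj : ∀ g x : GL (Fin 2) ℂ, sq (g * x * g⁻¹) = sq x := fun g x => by
    simp only [sq, Units.val_mul]
    rw [Matrix.trace_mul_cycle, ← Units.val_mul, inv_mul_cancel, Units.val_one, one_mul]
  set V : Finset ℝ := Finset.univ.image fun g : R.range => sq g.1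
  set n : ℝ := (Fintype.card R.range : ℝ)
  have hn : 0 < n := Nat.cast_pos.mpr Fintype.card_pos
  let prop : ℝ → ℝ := fun w => (Nat.card {x : R.range // sq x.1 = w} : ℝ) / n
  have hmean : 2 ≤ ∑ w ∈ V, w * prop w := by
    have e : ∑ w ∈ V, w * prop w = (∑ g : R.range, sq g.1) / n :=
      sum_image_mul_proportion fun g : R.range => sq g.1
    rw [e, le_div_iff₀ hn]
    refine (two_mul_card_le_sum aH bH).trans (le_of_eq (Finset.sum_congr rfl fun g _ => ?_))
    simp only [sq, htrace]
  have hV0 : ∀ w ∈ V, 0 ≤ w := fun w hw => by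
    obtain ⟨g, -, rfl⟩ := Finset.mem_image.mp hw
    positivity
  -- Chebotarev: the series of squared traces is nearly `2 log (1/(s-1))`; Rankin: at most `log`
  set W : ℝ := ∑ w ∈ V, w
  have hW : 0 ≤ W := Finset.sum_nonneg hV0
  set δ : ℝ := 1 / (2 * (W + 1))
  have hδ : 0 < δ := by positivity
  have hev : ∀ᶠ s in 𝓝[>] (1 : ℝ), ∀ w ∈ V, (prop w - δ) * (-Real.log (s - 1)) ≤
      primeSum (repInd R fun x => sq x = w) s := by
    rw [Finset.eventually_all]
    refine fun w _ => eventually_le_repInd R hR _ (fun g x hx => (hsqconj g x).trans hx) ?_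
    show prop w - δ < _
    rw [Nat.card_eq_fintype_card (α := R.range)]
    exact sub_lt_self _ hδ
  obtain ⟨B, hB⟩ := rankinStatement N ε f hf
  have hbig := tendsto_negLog.eventually (eventually_gt_atTop (2 * (|B| + W * N.primeFactors.card)))
  have hlt2 : ∀ᶠ s in 𝓝[>] (1 : ℝ), s < 2 :=
    nhdsWithin_le_nhds (eventually_lt_nhds (show (1 : ℝ) < 2 by norm_num))
  obtain ⟨s, hs1, hs2, hs3, hs⟩ := (hev.and (hbig.and (hlt2.and self_mem_nhdsWithin))).exists
  set Lg := -Real.log (s - 1)
  have htot : ∑ w ∈ V, w * primeSum (repInd R fun x => sq x = w) s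
      ≤ Lg + B + W * N.primeFactors.card :=
    sum_mul_primeSum_repInd_le R sq _ (fun p => sq_nonneg _)
      (fun p hp A σ hA hσ => by simp only [sq, htr p p.2 hp A hA σ hσ]) hV0 hs (hB s hs hs3)
  have hlow : ∑ w ∈ V, w * ((prop w - δ) * Lg) ≤ ∑ w ∈ V,
      w * primeSum (repInd R fun x => sq x = w) s :=
    Finset.sum_le_sum fun w hw => mul_le_mul_of_nonneg_left (hs1 w hw) (hV0 w hw)
  have hexp : ∑ w ∈ V, w * ((prop w - δ) * Lg) = (∑ w ∈ V, w * prop w - δ * W) * Lg := by
    rw [Finset.mul_sum, ← Finset.sum_sub_distrib, Finset.sum_mul]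
    exact Finset.sum_congr rfl fun w _ => by ring
  have hδW : δ * W ≤ 1 / 2 := by
    rw [show δ * W = W / (2 * (W + 1)) by simp only [δ]; ring, div_le_iff₀ (by positivity)]
    linarith
  have hL : 0 ≤ Lg := by
    have : 0 ≤ |B| + W * N.primeFactors.card := by positivity
    linarith
  have h32 : 3 / 2 * Lg ≤ (∑ w ∈ V, w * prop w - δ * W) * Lg :=
    mul_le_mul_of_nonneg_right (by linarith) hL
  linarith [le_abs_self B]

end Fermat.DS

end
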