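import Fermat.Agent.CFT.Density.Places

/-!
# Primes splitting completely in a number field

Above infinitely many primes every reduction sends the integers of a given number field to the
prime field.
-/

set_option autoImplicit false

noncomputable section

open NumberField

namespace Fermat.DS

open Fermat.CFT

local notation "ℚbar" => AlgebraicClosure ℚ
local notation "Γℚ" => (AlgebraicClosure ℚ ≃ₐ[ℚ] AlgebraicClosure ℚ)

/-- An element of an algebraic closure of `F_l` fixed by Frobenius is in `F_l`. -/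
theorem mem_range_of_pow_eq {l : ℕ} [hl : Fact l.Prime] {x : AlgebraicClosure (ZMod l)}
    (hx : x ^ l = x) : ∃ a : ZMod l, x = algebraMap (ZMod l) (AlgebraicClosure (ZMod l)) a := by
  obtain ⟨a, ha⟩ : x ∈ (ZMod.castHom (dvd_refl l) (AlgebraicClosure (ZMod l))).fieldRange := by
    rw [ZMod.fieldRange_castHom_eq_bot]
    exact (Subfield.mem_bot_iff_pow_eq_self _ l).mpr hx
  exact ⟨a, by rw [← ha]; congr 1; exact Subsingleton.elim _ _⟩

/-- An algebraic integer all of whose conjugates lie in one prime above `l` reduces to zero. -/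
theorem red_eq_zero_of_conj {l : ℕ} [hl : Fact l.Prime] {A : ValuationSubring ℚbar}
    (hA : A.LiesOverPrime l) {z : 𝓞 ℚbar} (hz : ∀ τ : Γℚ, τ • z ∈ primeOf A)
    {k : Type} [Field k] [CharP k l] (red : 𝓞 ℚbar →+* k) : red z = 0 := by
  classical
  set P : Polynomial ℤ := minpoly ℤ (z : ℚbar)
  have hzi : IsIntegral ℤ (z : ℚbar) := z.isIntegral_coe
  have hmonic : P.Monic := minpoly.monic hzi
  set ι : 𝓞 ℚbar →+* ℚbar := algebraMap (𝓞 ℚbar) ℚbar
  have hι : Function.Injective ι := RingOfIntegers.coe_injective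
  set PQ : Polynomial ℚbar := P.map (Int.castRingHom ℚbar)
  have hsplit : PQ.Splits := IsAlgClosed.splits _
  -- the roots are integral and lie in the prime
  have hroot : ∀ r ∈ PQ.roots, ∃ w : 𝓞 ℚbar, ι w = r ∧ w ∈ primeOf A := fun r hr => by
    have hr0 := Polynomial.isRoot_of_mem_roots hr
    have hconj : IsConjRoot ℚ r (z : ℚbar) := by
      refine Eq.symm (minpoly.eq_of_irreducible_of_monic
        (minpoly.irreducible (hzi.tower_top (A := ℚ)))
        ?_ (minpoly.monic (hzi.tower_top (A := ℚ))))
      rw [minpoly.isIntegrallyClosed_eq_field_fractions' ℚ hzi, Polynomial.aeval_def,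
        Polynomial.eval₂_map,
        RingHom.ext_int ((algebraMap ℚ ℚbar).comp (algebraMap ℤ ℚ)) (Int.castRingHom ℚbar),
        ← Polynomial.eval_map]
      exact hr0
    obtain ⟨τ, hτ⟩ := hconj.exists_algEquiv
    exact ⟨τ • z, hτ, hz τ⟩
  choose w hw hwmem using hroot
  set m : Multiset (𝓞 ℚbar) := PQ.roots.attach.map fun r => w r.1 r.2
  have hPO : P.map (Int.castRingHom (𝓞 ℚbar)) =
      (m.map fun a => Polynomial.X - Polynomial.C a).prod := by
    refine Polynomial.map_injective ι hι ?_
    rw [Polynomial.map_map, RingHom.ext_int (ι.comp (Int.castRingHom (𝓞 ℚbar)))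
      (Int.castRingHom ℚbar), Polynomial.map_multiset_prod, Multiset.map_map,
      show P.map (Int.castRingHom ℚbar) = PQ from rfl,
      hsplit.eq_prod_roots_of_monic (hmonic.map _)]
    congr 1
    rw [Multiset.map_map]
    conv_lhs => rw [← Multiset.attach_map_val PQ.roots, Multiset.map_map]
    refine Multiset.map_congr rfl fun r _ => ?_
    simp [hw]
  -- modulo the prime
  let π := Ideal.Quotient.mk (primeOf A)
  have hmod : P.map (Int.castRingHom (𝓞 ℚbar ⧸ primeOf A)) = Polynomial.X ^ Multiset.card m := by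
    rw [← RingHom.ext_int (π.comp (Int.castRingHom (𝓞 ℚbar))) (Int.castRingHom _),
      ← Polynomial.map_map, hPO, Polynomial.map_multiset_prod, Multiset.map_map]
    rw [Multiset.map_congr rfl (g := fun _ => (Polynomial.X : Polynomial (𝓞 ℚbar ⧸ primeOf A)))
      fun a ha => ?_, Multiset.map_const', Multiset.prod_replicate]
    obtain ⟨r, -, rfl⟩ := Multiset.mem_map.mp ha
    simp [π, Ideal.Quotient.eq_zero_iff_mem.mpr (hwmem r.1 r.2)]
  have hcoef : P.map (Int.castRingHom k) = Polynomial.X ^ Multiset.card m := by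
    ext n
    have h := congrArg (Polynomial.coeff · n) hmod
    simp only [Polynomial.coeff_map, Polynomial.coeff_X_pow] at h ⊢
    have key : ∀ a : ℤ, (a : 𝓞 ℚbar ⧸ primeOf A) = 0 → (a : k) = 0 := fun a ha => by
      rw [← map_intCast π, Ideal.Quotient.eq_zero_iff_mem] at ha
      have ha' : a ∈ (primeOf A).under ℤ := by
        rw [Ideal.under_def, Ideal.mem_comap]
        simpa using ha
      rw [under_int_primeOf hl.out hA, Ideal.mem_span_singleton] at ha'
      exact (CharP.intCast_eq_zero_iff k l a).mpr ha'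
    split_ifs with hn
    · rw [if_pos hn] at h
      have := key (P.coeff n - 1) (by simpa [sub_eq_zero] using h)
      simpa [sub_eq_zero] using this
    · rw [if_neg hn] at h
      exact key _ h
  have hz0 : Polynomial.eval₂ (Int.castRingHom (𝓞 ℚbar)) z P = 0 := by
    refine hι ?_
    rw [map_zero, Polynomial.hom_eval₂, RingHom.ext_int (ι.comp (Int.castRingHom (𝓞 ℚbar)))
      (algebraMap ℤ ℚbar)]
    exact minpoly.aeval ℤ (z : ℚbar)
  have h := congrArg red hz0
  rw [map_zero, Polynomial.hom_eval₂, RingHom.ext_int (red.comp (Int.castRingHom (𝓞 ℚbar)))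
    (Int.castRingHom k), ← Polynomial.eval_map, hcoef, Polynomial.eval_pow, Polynomial.eval_X] at h
  exact eq_zero_of_pow_eq_zero h

/-- The complex embedding used to compare the two algebraic closures of `ℚ`. -/
def toC : ℚbar →ₐ[ℚ] ℂ := IsAlgClosed.lift

/-- Every algebraic complex number is in the image of `toC`. -/
theorem exists_toC_eq {x : ℂ} (hx : IsIntegral ℚ x) : ∃ y : ℚbar, toC y = x := by
  have hsplit : ((minpoly ℚ x).map (algebraMap ℚ ℚbar)).Splits := IsAlgClosed.splits _
  have h := hsplit.image_rootSet toC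
  have hmem : x ∈ (minpoly ℚ x).rootSet ℂ :=
    Polynomial.mem_rootSet.mpr ⟨minpoly.ne_zero hx, minpoly.aeval ℚ x⟩
  rw [← h] at hmem
  obtain ⟨y, -, hy⟩ := hmem
  exact ⟨y, hy⟩

/-- **Infinitely many primes split completely in a number field:** every reduction sends its
integers to the prime field. -/
theorem exists_split_prime (K : IntermediateField ℚ ℂ) [FiniteDimensional ℚ K] (T : Finset ℕ) :
    ∃ l : ℕ, ∃ _ : Fact l.Prime, l ∉ T ∧
      ∀ (red : integralClosure ℤ ℂ →+* AlgebraicClosure (ZMod l)) (x : integralClosure ℤ ℂ),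
        (x : ℂ) ∈ K → ∃ a : ZMod l, red x = algebraMap (ZMod l) _ a := by
  classical
  set b := Module.finBasis ℚ K
  have hb : ∀ i, ∃ y : ℚbar, toC y = (b i : ℂ) := fun i =>
    exists_toC_eq ((Algebra.IsIntegral.isIntegral (R := ℚ) (b i)).map K.val)
  choose y hy using hb
  set L0 := IntermediateField.adjoin ℚ (Set.range y)
  have : FiniteDimensional ℚ L0 :=
    IntermediateField.finiteDimensional_adjoin fun x _ => Algebra.IsIntegral.isIntegral x
  set L := IntermediateField.normalClosure ℚ L0 ℚbar
  have : Normal ℚ L := normalClosure.normal ℚ L0 ℚbar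
  obtain ⟨l, hlp, hlT, -, A, hA, φ, hφ, hgen⟩ := exists_place_frobenius_generating L 1 T
  have : Fact l.Prime := ⟨hlp⟩
  refine ⟨l, inferInstance, hlT, fun red x hxK => ?_⟩
  have hφ1 : φ ∈ L.fixingSubgroup := by
    refine (restrict_eq_one_iff L φ).mp ?_
    rw [map_one, Subgroup.zpowers_one_eq_bot, Subgroup.zpowers_eq_bot] at hgen
    exact hgen
  have hx : ∃ w ∈ L, toC w = (x : ℂ) := by
    refine ⟨∑ i, (b.repr ⟨x, hxK⟩ i) • y i, ?_, ?_⟩
    · exact sum_mem fun i _ => L.smul_mem (IntermediateField.le_normalClosure L0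
        (IntermediateField.subset_adjoin ℚ _ ⟨i, rfl⟩))
    · have e := congrArg K.val (b.sum_repr ⟨x, hxK⟩)
      rw [map_sum] at e
      rw [map_sum]
      refine (Finset.sum_congr rfl fun i _ => ?_).trans e
      rw [Algebra.smul_def, Algebra.smul_def, map_mul, map_mul, AlgHom.commutes, hy]
      rfl
  obtain ⟨w, hwL, hw⟩ := hx
  have hwi : IsIntegral ℤ w :=
    (isIntegral_algHom_iff (toC.restrictScalars ℤ) toC.injective).mp (by
      change IsIntegral ℤ (toC w)
      rw [hw]
      exact x.2)
  set W : 𝓞 ℚbar := ⟨w, hwi⟩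
  -- `φ` fixes `L`, so `W ^ l - W` and its conjugates lie in the prime
  have hconj : ∀ τ : Γℚ, τ • (W ^ l - W) ∈ primeOf A := fun τ => by
    have hτL : τ w ∈ L := by
      have h := AlgEquiv.restrictNormal_commutes τ L ⟨w, hwL⟩
      rw [show τ w = (algebraMap L ℚbar) (τ.restrictNormal L ⟨w, hwL⟩) from h.symm]
      exact SetLike.coe_mem _
    have hfix : φ • (τ • W) = τ • W := RingOfIntegers.ext
      ((IntermediateField.mem_fixingSubgroup_iff L φ).mp hφ1 _ hτL)
    have h := (isFrobeniusAt_iff hlp hA φ).mp hφ (τ • W)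
    rw [hfix] at h
    rw [smul_sub, smul_pow']
    simpa using neg_mem h
  let j : 𝓞 ℚbar →+* integralClosure ℤ ℂ :=
    { toFun := fun u => ⟨toC (u : ℚbar), u.isIntegral_coe.map (toC.restrictScalars ℤ)⟩
      map_one' := Subtype.ext (map_one toC)
      map_mul' := fun u v => Subtype.ext (map_mul toC _ _)
      map_zero' := Subtype.ext (map_zero toC)
      map_add' := fun u v => Subtype.ext (map_add toC _ _) }
  have h0 := red_eq_zero_of_conj hA hconj (red.comp j)
  have hjW : j W = x := Subtype.ext hw
  rw [map_sub, map_pow, RingHom.comp_apply, hjW, sub_eq_zero] at h0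
  exact mem_range_of_pow_eq h0

end Fermat.DS

end
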