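import Fermat.Agent.DS.Main.Bounded
import Fermat.Agent.DS.Main.Complex
import Fermat.Agent.DS.Main.Irreducible
import Fermat.Agent.DS.Main.Split
import Fermat.Agent.DS.Red.Main
import Fermat.Agent.DS.Eis.Main
import Fermat.Agent.DS.Grp.Main
import Fermat.Agent.DS.Lift.Main

/-!
# The Artin representation of a weight one eigenform

The images of the representations modulo the split primes have bounded order; lifted, they give one
complex representation.

`exists_bounded_image`; `Assembly` lifts these representations and glues them.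
-/

set_option autoImplicit false

noncomputable section

open Filter CongruenceSubgroup ModularFormClass Matrix
open scoped MatrixGroups

namespace Fermat.DS

open Fermat.CFT

local notation "ℚbar" => AlgebraicClosure ℚ
local notation "Γℚ" => (AlgebraicClosure ℚ ≃ₐ[ℚ] AlgebraicClosure ℚ)

/-- Conjugation preserves trace and determinant. -/
theorem trace_det_conj {k : Type} [Field k] (g x : GL (Fin 2) k) :
    ((g * x * g⁻¹ : GL (Fin 2) k) : Matrix (Fin 2) (Fin 2) k).trace =
        (x : Matrix (Fin 2) (Fin 2) k).trace ∧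
      ((g * x * g⁻¹ : GL (Fin 2) k) : Matrix (Fin 2) (Fin 2) k).det =
        (x : Matrix (Fin 2) (Fin 2) k).det :=
  ⟨Matrix.trace_units_conj g x.1, Matrix.det_units_conj g x.1⟩

/-- A pair of representations of finite level has finite level. -/
theorem finiteLevel_pair {M M' : Type} [Group M] [Group M'] (R : Γℚ →* M) (R' : Γℚ →* M')
    (h : GaloisFactorsThroughFiniteLevel R) (h' : GaloisFactorsThroughFiniteLevel R') :
    GaloisFactorsThroughFiniteLevel (R.prod R') := by
  obtain ⟨L, hL, h⟩ := h
  obtain ⟨L', hL', h'⟩ := h'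
  exact ⟨L ⊔ L', inferInstance, fun σ hσ => Prod.ext
    (h σ fun x hx => hσ x (le_sup_left (α := IntermediateField ℚ ℚbar) hx))
    (h' σ fun x hx => hσ x (le_sup_right (α := IntermediateField ℚ ℚbar) hx))⟩

variable {N : ℕ} [NeZero N] {ε : DirichletCharacter ℂ N} {f : CuspForm (Gamma1 N) 1}

/-- `R` has finite level and is attached to the eigenform away from `N` and `l`. -/
def IsArtinAway (ε : DirichletCharacter ℂ N) (f : CuspForm (Gamma1 N) 1) (l : ℕ)
    (R : Γℚ →* GL (Fin 2) ℂ) : Prop :=
  GaloisFactorsThroughFiniteLevel R ∧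
    ∀ p : ℕ, p.Prime → ¬ p ∣ N → p ≠ l → ∀ A : ValuationSubring ℚbar,
      A.LiesOverPrime p → (∀ σ ∈ A.inertiaSubgroupIn ℚ, R σ = 1) ∧
        ∀ σ : Γℚ, A.IsFrobeniusAt σ p →
          (R σ : Matrix (Fin 2) (Fin 2) ℂ).trace = qCoeff f p ∧
            (R σ : Matrix (Fin 2) (Fin 2) ℂ).det = ε (p : ZMod N)

/-- **The images at the split primes are bounded:** a bound `A` and a number field `K` with the
eigenvalues, such that for large `l` split in `K` the residual representations have images of
order at most `A`. -/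
theorem exists_bounded_image (hf : IsWeightOneEigen ε f) :
    ∃ (A : ℕ) (Bd : ℕ) (K : IntermediateField ℚ ℂ) (_ : FiniteDimensional ℚ K),
      (∀ p : ℕ, p.Prime → ¬ p ∣ N → qCoeff f p ∈ K) ∧
      ∀ (l : ℕ) [Fact l.Prime], Bd < l →
        (∀ (red : integralClosure ℤ ℂ →+* AlgebraicClosure (ZMod l)) (x : integralClosure ℤ ℂ),
          (x : ℂ) ∈ K → ∃ a : ZMod l, red x = algebraMap (ZMod l) _ a) →
        ∀ red : integralClosure ℤ ℂ →+* AlgebraicClosure (ZMod l),
          ∃ ρ : Γℚ →* GL (Fin 2) (AlgebraicClosure (ZMod l)),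
            IsResidual hf red ρ ∧ Nat.card ρ.range ≤ A := by
  classical
  obtain ⟨K, hKfin, haK, hεK⟩ := hf.exists_numberField
  obtain ⟨Y, hYint, hY⟩ := exists_few_values hf (show (0 : ℝ) < 1 / 4 by norm_num)
  set Z : Finset (integralClosure ℤ ℂ × integralClosure ℤ ℂ) :=
    (Y.attach.image fun y => (⟨y.1, hYint y.1 y.2⟩ : integralClosure ℤ ℂ)) ×ˢ
      (Finset.univ.image (charInt ε))
  obtain ⟨A, hA⟩ := smallImageStatement Z.card
  obtain ⟨B, hB⟩ := exists_residual eisStatement hf
  refine ⟨A, B, K, hKfin, haK, fun l _ hBl hsplit red => ?_⟩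
  obtain ⟨ρ, hρ⟩ := hB l hBl red
  have hρ' := hρ
  obtain ⟨hfin, hss, hloc⟩ := hρ'
  refine ⟨ρ, hρ, ?_⟩
  have := finite_range ρ hfin
  have := Fintype.ofFinite ρ.range
  set T : Finset ℕ := insert l N.primeFactors
  have hT : ∀ p : ℕ, p.Prime → p ∉ T → ¬ p ∣ N ∧ p ≠ l := fun p hp h =>
    ⟨fun hd => h (Finset.mem_insert_of_mem (Nat.mem_primeFactors.mpr ⟨hp, hd, NeZero.ne N⟩)),
      fun e => h (Finset.mem_insert.mpr (Or.inl e))⟩
  refine hA l ρ.range inferInstance hss ?_ (Z.image fun z => (red z.1, red z.2))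
    Finset.card_image_le ?_
  -- all traces and determinants are in the prime field, by density
  · rintro _ ⟨σ, rfl⟩
    obtain ⟨p, hp, hpT, W, hW, φ, hφ, g, hg⟩ := exists_frobenius ρ hfin σ T
    obtain ⟨hpN, hpl⟩ := hT p hp hpT
    obtain ⟨ht, hd⟩ := (hloc p hp hpN hpl W hW).2 φ hφ
    rw [hg, (trace_det_conj g _).1] at ht
    rw [hg, (trace_det_conj g _).2] at hd
    obtain ⟨a, ha⟩ := hsplit red _
      (show ((⟨qCoeff f p, hf.isIntegral hp hpN⟩ : integralClosure ℤ ℂ) : ℂ) ∈ K from haK p hp hpN)
    obtain ⟨d, hd'⟩ := hsplit red (charInt ε (p : ZMod N)) (hεK _)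
    exact ⟨a, d, ht.trans ha, hd.trans hd'⟩
  · set P : GL (Fin 2) (AlgebraicClosure (ZMod l)) → Prop := fun x =>
      ((x : Matrix (Fin 2) (Fin 2) _).trace, (x : Matrix (Fin 2) (Fin 2) _).det) ∈
        Z.image fun z => (red z.1, red z.2)
    have hsplitcard : Nat.card {x : ρ.range // P x.1} + Nat.card {x : ρ.range // ¬ P x.1} =
        Nat.card ρ.range := by
      rw [Nat.card_eq_fintype_card, Nat.card_eq_fintype_card, Nat.card_eq_fintype_card,
        Fintype.card_subtype_compl]
      have := Fintype.card_subtype_le fun x : ρ.range => P x.1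
      omega
    -- three quarters of the image have characteristic polynomial in the finite set
    change 3 * Nat.card ρ.range ≤ 4 * Nat.card {x : ρ.range // P x.1}
    by_contra hne
    rw [not_le] at hne
    have hnR : (0 : ℝ) < (Nat.card ρ.range : ℝ) := Nat.cast_pos.mpr Nat.card_pos
    have h14 : (1 / 4 : ℝ) < (Nat.card {x : ρ.range // ¬ P x.1} : ℝ) / (Nat.card ρ.range : ℝ) := by
      rw [lt_div_iff₀ hnR]
      have : (Nat.card ρ.range : ℕ) < 4 * Nat.card {x : ρ.range // ¬ P x.1} := by omega
      have : (Nat.card ρ.range : ℝ) <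
        4 * (Nat.card {x : ρ.range // ¬ P x.1} : ℝ) := by exact_mod_cast this
      linarith
    obtain ⟨c, hc1, hc2⟩ := exists_between h14
    -- else primes of density above `1/4` have eigenvalue outside `Y`
    have hlow := eventually_le_repInd ρ hfin (fun x => ¬ P x)
      (fun g x hx => by
        simpa only [P, (trace_det_conj g x).1, (trace_det_conj g x).2] using hx) hc2
    set T' : Finset Nat.Primes := T.preimage Subtype.val Subtype.val_injective.injOn
    have hbig := tendsto_negLog.eventually (eventually_gt_atTop (2 * (T'.card : ℝ) / (c - 1 / 4)))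
    obtain ⟨s, hs1, hs2, hs3, hs⟩ := (hlow.and (hY.and (hbig.and self_mem_nhdsWithin))).exists
    have hle : primeSum (fun q => repInd ρ (fun x => ¬ P x) q - outInd f Y q) s ≤ 2 * T'.card := by
      have h2 : primeSum (fun q => (repInd ρ (fun x => ¬ P x) q - outInd f Y q) / 2)
          s ≤ T'.card := by
        refine primeSum_le_card T' (fun q => ?_) (fun q hq => ?_) hs
        · rw [abs_div, abs_two, div_le_one two_pos]
          linarith [abs_sub (repInd ρ (fun x => ¬ P x) q) (outInd f Y q),
            abs_repInd_le ρ (fun x => ¬ P x) q, abs_outInd_le (f := f) Y q]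
        · obtain ⟨hqN, hql⟩ := hT (q : ℕ) q.2 fun h => hq (Finset.mem_preimage.mpr h)
          refine div_nonpos_of_nonpos_of_nonneg (sub_nonpos.mpr ?_) two_pos.le
          unfold repInd outInd
          split_ifs with h1 h2
          · exact le_rfl
          · obtain ⟨W, φ, hW, hφ, hPn⟩ := h1
            refine absurd ⟨hqN, fun hy => hPn ?_⟩ h2
            obtain ⟨ht, hd⟩ := (hloc q q.2 hqN hql W hW).2 φ hφ
            refine Finset.mem_image.mpr ⟨(⟨qCoeff f (q : ℕ), hf.isIntegral q.2 hqN⟩,
              charInt ε ((q : ℕ) : ZMod N)), Finset.mem_product.mpr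
                ⟨Finset.mem_image.mpr ⟨⟨_, hy⟩, Finset.mem_attach _ _, rfl⟩,
                  Finset.mem_image.mpr ⟨_, Finset.mem_univ _, rfl⟩⟩, Prod.ext ht.symm hd.symm⟩
          · exact zero_le_one
          · exact le_rfl
      have e : primeSum (fun q => (repInd ρ (fun x => ¬ P x) q - outInd f Y q) / 2) s =
          primeSum (fun q => repInd ρ (fun x => ¬ P x) q - outInd f Y q) s / 2 := by
        rw [primeSum, primeSum, ← tsum_div_const]
        exact tsum_congr fun q => div_mul_eq_mul_div _ _ _
      rw [e] at h2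
      linarith
    have esub : primeSum (fun q => repInd ρ (fun x => ¬ P x) q - outInd f Y q) s =
        primeSum (repInd ρ fun x => ¬ P x) s - primeSum (outInd f Y) s := by
      simp only [primeSum, sub_mul]
      exact (summable_primeSum (abs_repInd_le _ _) hs).tsum_sub
        (summable_primeSum (abs_outInd_le Y) hs)
    rw [esub] at hle
    rw [div_lt_iff₀ (by linarith)] at hs3
    nlinarith [hle, hs1, hs2, hs3]

end Fermat.DS

end
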