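import Fermat.Agent.DS.Main.Artin
import Fermat.Agent.CFT.Density.Places

/-!
# One complex representation for all the split primes

The steps of Deligne and Serre (interfaces in `DS/Defs`): representations modulo large `l`
(`DS/Red/Main`, through the form congruent to one of `DS/Eis`); bounded images at split primes by
Rankin's bound and Chebotarev (`DS/Main/Artin`, `DS/Rankin`, `DS/Cheb`, `DS/Grp`); lifts to `ℂ`
(`DS/Lift`) give one representation, irreducible by `DS/Main/Irreducible`.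

`exists_artin` is S48; it is also used for the comparison in `LTG/Ext`.
-/

set_option autoImplicit false

noncomputable section

open Filter CongruenceSubgroup ModularFormClass Matrix
open scoped MatrixGroups

namespace Fermat.DS

open Fermat.CFT

local notation "ℚbar" => AlgebraicClosure ℚ
local notation "Γℚ" => (AlgebraicClosure ℚ ≃ₐ[ℚ] AlgebraicClosure ℚ)

variable {N : ℕ} [NeZero N] {ε : DirichletCharacter ℂ N} {f : CuspForm (Gamma1 N) 1}

/-- **Lifting a residual representation with small image**: complex, with all values in a fixed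
finite set. -/
theorem exists_lifted (hf : IsWeightOneEigen ε f) {A l : ℕ} [Fact l.Prime] (hAl : A < l)
    {red : integralClosure ℤ ℂ →+* AlgebraicClosure (ZMod l)}
    (hred : ∀ (G : Subgroup (GL (Fin 2) (AlgebraicClosure (ZMod l)))), Finite G → ¬ l ∣ Nat.card G →
      ∃ θ : G →* GL (Fin 2) ℂ, ∀ g : G, ∃ t e : integralClosure ℤ ℂ,
        (t : ℂ) = (θ g : Matrix (Fin 2) (Fin 2) ℂ).trace ∧
        (e : ℂ) = (θ g : Matrix (Fin 2) (Fin 2) ℂ).det ∧
        red t = (g.1 : Matrix (Fin 2) (Fin 2) (AlgebraicClosure (ZMod l))).trace ∧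
        red e = (g.1 : Matrix (Fin 2) (Fin 2) (AlgebraicClosure (ZMod l))).det)
    {ρ : Γℚ →* GL (Fin 2) (AlgebraicClosure (ZMod l))} (hρ : IsResidual hf red ρ)
    (hcard : Nat.card ρ.range ≤ A) :
    ∃ R : Γℚ →* GL (Fin 2) ℂ, GaloisFactorsThroughFiniteLevel R ∧
      ∀ p : ℕ, ∀ (hp : p.Prime) (hpN : ¬ p ∣ N), p ≠ l → ∀ W : ValuationSubring ℚbar,
        W.LiesOverPrime p → (∀ σ ∈ W.inertiaSubgroupIn ℚ, R σ = 1) ∧
          ∀ σ : Γℚ, W.IsFrobeniusAt σ p → ∃ t e : integralClosure ℤ ℂ,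
            (t : ℂ) = (R σ : Matrix (Fin 2) (Fin 2) ℂ).trace ∧
            (e : ℂ) = (R σ : Matrix (Fin 2) (Fin 2) ℂ).det ∧
            (t : ℂ) ∈ rootSums A.factorial ∧ (e : ℂ) ∈ rootSums A.factorial ∧
            red t = red ⟨qCoeff f p, hf.isIntegral hp hpN⟩ ∧
            red e = red (charInt ε (p : ZMod N)) := by
  obtain ⟨hfin, -, hloc⟩ := hρ
  have := finite_range ρ hfin
  have hl : ¬ l ∣ Nat.card ρ.range := fun h =>
    absurd ((Nat.le_of_dvd Nat.card_pos h).trans hcard) (not_le.mpr hAl)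
  obtain ⟨θ, hθ⟩ := hred ρ.range inferInstance hl
  refine ⟨θ.comp ρ.rangeRestrict, ?_, fun p hp hpN hpl W hW => ?_⟩
  · obtain ⟨L, hL, h⟩ := hfin
    refine ⟨L, hL, fun σ hσ => ?_⟩
    rw [MonoidHom.comp_apply, show ρ.rangeRestrict σ = 1 from Subtype.ext (h σ hσ), map_one]
  obtain ⟨hi, hfr⟩ := hloc p hp hpN hpl W hW
  refine ⟨fun σ hσ => by
    rw [MonoidHom.comp_apply, show ρ.rangeRestrict σ = 1 from Subtype.ext (hi σ hσ), map_one],
    fun σ hσ => ?_⟩
  obtain ⟨t, e, ht, he, hrt, hre⟩ := hθ (ρ.rangeRestrict σ)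
  obtain ⟨hT, hD⟩ := hfr σ hσ
  have hpow : (θ (ρ.rangeRestrict σ) : Matrix (Fin 2) (Fin 2) ℂ) ^ A.factorial = 1 := by
    obtain ⟨c, hc⟩ := Nat.dvd_factorial Nat.card_pos hcard
    rw [← Units.val_pow_eq_pow_val, ← map_pow, hc, pow_mul, pow_card_eq_one', one_pow, map_one,
      Units.val_one]
  obtain ⟨hmt, hme⟩ := trace_det_mem_rootSums A.factorial_pos hpow
  exact ⟨t, e, ht, he, ht ▸ hmt, he ▸ hme, hrt.trans hT, hre.trans hD⟩

/-- Outside every finite set of primes there is an `l` with a complex representation attached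
away from `N` and `l`. -/
theorem exists_artinAway (hf : IsWeightOneEigen ε f) :
    ∀ T : Finset ℕ, ∃ l : ℕ, l.Prime ∧ l ∉ T ∧ ∃ R, IsArtinAway ε f l R := by
  classical
  obtain ⟨A, Bd, K, hKfin, haK, hA⟩ := exists_bounded_image hf
  have := hKfin
  -- the possible values
  set m := A.factorial
  let Y0 : Finset (integralClosure ℤ ℂ) := (rootSums m).attach.image fun x =>
    ⟨x.1, isIntegral_of_mem_rootSums A.factorial_pos x.2⟩
  have hY0 : ∀ x : integralClosure ℤ ℂ, (x : ℂ) ∈ rootSums m → x ∈ Y0 := fun x hx =>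
    Finset.mem_image.mpr ⟨⟨_, hx⟩, Finset.mem_attach _ _, rfl⟩
  -- good primes are available outside any finite set
  have hgood : ∀ T : Finset ℕ, ∃ (l : ℕ) (_ : Fact l.Prime), l ∉ T ∧
      ∃ red : integralClosure ℤ ℂ →+* AlgebraicClosure (ZMod l), ∃ R : Γℚ →* GL (Fin 2) ℂ,
        GaloisFactorsThroughFiniteLevel R ∧
        ∀ p : ℕ, ∀ (hp : p.Prime) (hpN : ¬ p ∣ N), p ≠ l → ∀ W : ValuationSubring ℚbar,
          W.LiesOverPrime p → (∀ σ ∈ W.inertiaSubgroupIn ℚ, R σ = 1) ∧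
            ∀ σ : Γℚ, W.IsFrobeniusAt σ p → ∃ t e : integralClosure ℤ ℂ,
              (t : ℂ) = (R σ : Matrix (Fin 2) (Fin 2) ℂ).trace ∧
              (e : ℂ) = (R σ : Matrix (Fin 2) (Fin 2) ℂ).det ∧
              (t : ℂ) ∈ rootSums m ∧ (e : ℂ) ∈ rootSums m ∧
              red t = red ⟨qCoeff f p, hf.isIntegral hp hpN⟩ ∧
              red e = red (charInt ε (p : ZMod N)) := by
    intro T
    obtain ⟨l, hl, hlT, hsplit⟩ := exists_split_prime K (T ∪ Finset.range (max A Bd + 1))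
    rw [Finset.mem_union, Finset.mem_range, not_or, not_lt] at hlT
    obtain ⟨red, hred⟩ := liftStatement l
    obtain ⟨ρ, hρ, hcard⟩ := hA l (by omega) hsplit red
    exact ⟨l, hl, hlT.1, red, exists_lifted hf (by omega) hred hρ hcard⟩
  -- the eigenvalues lie in the finite set
  have hval : ∀ p : ℕ, ∀ (hp : p.Prime) (hpN : ¬ p ∣ N),
      (⟨qCoeff f p, hf.isIntegral hp hpN⟩ : integralClosure ℤ ℂ) ∈ Y0 := fun p hp hpN => by
    set a : integralClosure ℤ ℂ := ⟨qCoeff f p, hf.isIntegral hp hpN⟩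
    obtain ⟨B, hB⟩ := exists_bound_red_injOn (insert a Y0)
    obtain ⟨l, hl, hlT, red, R, -, hR⟩ := hgood (insert p (Finset.range (B + 1)))
    rw [Finset.mem_insert, Finset.mem_range, not_or, not_lt] at hlT
    obtain ⟨W, hW⟩ := Fermat.CFT.exists_place hp
    obtain ⟨σ, hσ⟩ := exists_isFrobeniusAt hp hW
    obtain ⟨t, e, -, -, htm, -, hrt, -⟩ := (hR p hp hpN (Ne.symm hlT.1) W hW).2 σ hσ
    have := hB l (by omega) red t (Finset.mem_insert_of_mem (hY0 t htm)) a
      (Finset.mem_insert_self _ _) hrt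
    exact this ▸ hY0 t htm
  obtain ⟨B, hB⟩ := exists_bound_red_injOn (Y0 ∪ Finset.univ.image (charInt ε))
  intro T
  obtain ⟨l, hl, hlT, red, R, hRfin, hR⟩ := hgood (T ∪ Finset.range (B + 1))
  rw [Finset.mem_union, Finset.mem_range, not_or, not_lt] at hlT
  refine ⟨l, hl.out, hlT.1, R, hRfin, fun p hp hpN hpl W hW => ?_⟩
  refine ⟨(hR p hp hpN hpl W hW).1, fun σ hσ => ?_⟩
  obtain ⟨t, e, ht, he, htm, hem, hrt, hre⟩ := (hR p hp hpN hpl W hW).2 σ hσ
  have h1 := hB l (by omega) red t (Finset.mem_union_left _ (hY0 t htm)) _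
    (Finset.mem_union_left _ (hval p hp hpN)) hrt
  have h2 := hB l (by omega) red e (Finset.mem_union_left _ (hY0 e hem)) _
    (Finset.mem_union_right _ (Finset.mem_image.mpr ⟨_, Finset.mem_univ _, rfl⟩)) hre
  exact ⟨ht.symm.trans (congrArg Subtype.val h1), he.symm.trans (congrArg Subtype.val h2)⟩

/-- If `R σ = 1` and `R'` of finite level has the same trace and determinant at `σ`, then `R' σ =
1`. -/
theorem eq_one_of_trace_det {R R' : Γℚ →* GL (Fin 2) ℂ} (hR' : GaloisFactorsThroughFiniteLevel R')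
    {σ : Γℚ} (h : R σ = 1)
    (ht : (R σ : Matrix (Fin 2) (Fin 2) ℂ).trace = (R' σ : Matrix (Fin 2) (Fin 2) ℂ).trace)
    (hd : (R σ : Matrix (Fin 2) (Fin 2) ℂ).det = (R' σ : Matrix (Fin 2) (Fin 2) ℂ).det) :
    R' σ = 1 := by
  have := finite_range R' hR'
  refine Units.ext (eq_one_of_finite_order (m := Nat.card R'.range) Nat.card_pos ?_ ?_ ?_)
  · have h1 : (⟨R' σ, σ, rfl⟩ : R'.range) ^ Nat.card R'.range = 1 := pow_card_eq_one'
    have h2 := congrArg (fun x : R'.range => ((x.1 : GL (Fin 2) ℂ) : Matrix (Fin 2) (Fin 2) ℂ)) h1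
    simpa using h2
  · rw [← ht, h, Units.val_one, trace_one, Fintype.card_fin]
    norm_num
  · rw [← hd, h, Units.val_one, det_one]

/-- **The Artin representation** of a weight one eigenform: irreducible, of finite level,
attached at every prime not dividing `N`. -/
theorem exists_artin (hf : IsWeightOneEigen ε f) :
    ∃ R : Γℚ →* GL (Fin 2) ℂ, GaloisFactorsThroughFiniteLevel R ∧
      (Deformation.matrixRepresentation R).IsIrreducible ∧
      ∀ p : ℕ, p.Prime → ¬ p ∣ N → ∀ A : ValuationSubring ℚbar, A.LiesOverPrime p →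
        (∀ σ ∈ A.inertiaSubgroupIn ℚ, R σ = 1) ∧
          ∀ σ : Γℚ, A.IsFrobeniusAt σ p →
            (R σ : Matrix (Fin 2) (Fin 2) ℂ).trace = qCoeff f p ∧
              (R σ : Matrix (Fin 2) (Fin 2) ℂ).det = ε (p : ZMod N) := by
  classical
  obtain ⟨l, hl, -, R, hR⟩ := exists_artinAway hf ∅
  obtain ⟨l', hl', hll, R', hR'⟩ := exists_artinAway hf {l}
  have hne : l ≠ l' := fun e => hll (by simp [e])
  -- the two agree
  have hagree : ∀ σ : Γℚ,
      (R σ : Matrix (Fin 2) (Fin 2) ℂ).trace = (R' σ : Matrix (Fin 2) (Fin 2) ℂ).trace ∧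
        (R σ : Matrix (Fin 2) (Fin 2) ℂ).det = (R' σ : Matrix (Fin 2) (Fin 2) ℂ).det := fun σ => by
    obtain ⟨p, hp, hpT, W, hW, φ, hφ, g, hg⟩ :=
      exists_frobenius (R.prod R') (finiteLevel_pair R R' hR.1 hR'.1) σ
        (insert l (insert l' N.primeFactors))
    simp only [Finset.mem_insert, not_or, Nat.mem_primeFactors, not_and, ne_eq] at hpT
    have hpN : ¬ p ∣ N := fun hd => hpT.2.2 hp hd (NeZero.ne N)
    obtain ⟨h1, h2⟩ := (hR.2 p hp hpN hpT.1 W hW).2 φ hφ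
    obtain ⟨h1', h2'⟩ := (hR'.2 p hp hpN hpT.2.1 W hW).2 φ hφ
    have e1 : R φ = g.1 * R σ * g.1⁻¹ := congrArg Prod.fst hg
    have e2 : R' φ = g.2 * R' σ * g.2⁻¹ := congrArg Prod.snd hg
    rw [e1, (trace_det_conj _ _).1] at h1
    rw [e1, (trace_det_conj _ _).2] at h2
    rw [e2, (trace_det_conj _ _).1] at h1'
    rw [e2, (trace_det_conj _ _).2] at h2'
    exact ⟨h1.trans h1'.symm, h2.trans h2'.symm⟩
  -- at `p = l` use the second representation
  have hall : ∀ p : ℕ, p.Prime → ¬ p ∣ N → ∀ A : ValuationSubring ℚbar, A.LiesOverPrime p →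
      (∀ σ ∈ A.inertiaSubgroupIn ℚ, R σ = 1) ∧
        ∀ σ : Γℚ, A.IsFrobeniusAt σ p →
          (R σ : Matrix (Fin 2) (Fin 2) ℂ).trace = qCoeff f p ∧
            (R σ : Matrix (Fin 2) (Fin 2) ℂ).det = ε (p : ZMod N) := by
    intro p hp hpN A hA
    by_cases hpl : p = l
    · have hpl' : p ≠ l' := hpl ▸ hne
      obtain ⟨hi, hfr⟩ := hR'.2 p hp hpN hpl' A hA
      exact ⟨fun σ hσ => eq_one_of_trace_det hR.1 (hi σ hσ) (hagree σ).1.symm (hagree σ).2.symm,
        fun σ hσ => ⟨(hagree σ).1.trans (hfr σ hσ).1, (hagree σ).2.trans (hfr σ hσ).2⟩⟩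
    · exact hR.2 p hp hpN hpl A hA
  exact ⟨R, hR.1, isIrreducible_of_trace hf R hR.1
    (fun p hp hpN A hA σ hσ => ((hall p hp hpN A hA).2 σ hσ).1), hall⟩

end Fermat.DS

end
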