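import Fermat.Agent.DS.Main.Density
import Fermat.Agent.DS.Rankin.Main
import Fermat.Agent.DS.Wt1.Algebraic

/-!
# The eigenvalues take few values outside a set of small density

By Rankin's bound at all conjugates of the form (`exists_few_values`).
-/

set_option autoImplicit false

noncomputable section

open Filter Topology CongruenceSubgroup ModularFormClass
open scoped MatrixGroups

namespace Fermat.DS

open Fermat.CFT

variable {N : ℕ} [NeZero N] {ε : DirichletCharacter ℂ N} {f : CuspForm (Gamma1 N) 1}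

/-- An embedding of a number field extends to all algebraic numbers. -/
theorem exists_extend_QbarC {K : IntermediateField ℚ ℂ} [FiniteDimensional ℚ K] (τ : K →+* ℂ) :
    ∃ σ : QbarC →+* ℂ, ∀ (x : ℂ) (hK : x ∈ K) (hQ : x ∈ QbarC), σ ⟨x, hQ⟩ = τ ⟨x, hK⟩ := by
  have hle : K ≤ QbarC := fun x hx => mem_algebraicClosure_iff.mpr
    (((Algebra.IsAlgebraic.isAlgebraic (R := ℚ) (⟨x, hx⟩ : K)).algHom K.val))
  let : Algebra K QbarC := (IntermediateField.inclusion hle).toAlgebra
  let : Algebra K ℂ := τ.toAlgebra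
  have : IsScalarTower ℚ K QbarC := IsScalarTower.of_algebraMap_eq fun q =>
    ((IntermediateField.inclusion hle).commutes q).symm
  have : Algebra.IsAlgebraic ℚ QbarC := (algebraicClosure.isAlgClosure ℚ ℂ).isAlgebraic
  have : Algebra.IsAlgebraic K QbarC := Algebra.IsAlgebraic.tower_top (K := ℚ) K
  let σ : QbarC →ₐ[K] ℂ := IsAlgClosed.lift
  exact ⟨σ.toRingHom, fun x hK hQ => σ.commutes ⟨x, hK⟩⟩

open Classical in
/-- `1` at the good primes whose eigenvalue is outside `Y`. -/
def outInd (f : CuspForm (Gamma1 N) 1) (Y : Finset ℂ) (q : Nat.Primes) : ℝ :=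
  if ¬ (q : ℕ) ∣ N ∧ qCoeff f (q : ℕ) ∉ Y then 1 else 0

omit [NeZero N] in
/-- The indicator is bounded by one. -/
theorem abs_outInd_le (Y : Finset ℂ) (q : Nat.Primes) : |outInd f Y q| ≤ 1 := by
  unfold outInd
  split_ifs <;> norm_num

/-- **Few values outside a set of small density:** outside density `η` the eigenvalues lie in a
finite set of algebraic integers. -/
theorem exists_few_values (hf : IsWeightOneEigen ε f) {η : ℝ} (hη : 0 < η) :
    ∃ Y : Finset ℂ, (∀ y ∈ Y, IsIntegral ℤ y) ∧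
      ∀ᶠ s in 𝓝[>] (1 : ℝ), primeSum (outInd f Y) s ≤ η * (-Real.log (s - 1)) := by
  classical
  obtain ⟨K, hKfin, haK, hεK⟩ := hf.exists_numberField
  have := hKfin
  have : NumberField K := ⟨⟩
  have : NeZero (27 * N) := ⟨mul_ne_zero (by norm_num) (NeZero.ne N)⟩
  choose σ hσ using fun τ : K →+* ℂ => exists_extend_QbarC τ
  choose f' hf'e hf'a using fun τ : K →+* ℂ => hf.exists_conjugate (σ τ)
  choose B hB using fun τ : K →+* ℂ => rankinStatement (27 * N) _ (f' τ) (hf'e τ)
  set r : ℝ := (Fintype.card (K →+* ℂ) : ℝ)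
  set c : ℝ := 2 * (r + 1) / η with hc
  have hcpos : 0 < c := by rw [hc]; positivity
  set Y : Finset ℂ := (NumberField.Embeddings.finite_of_norm_le K ℂ (Real.sqrt c)).toFinset.image
    fun x : K => (x : ℂ)
  refine ⟨Y, fun y hy => ?_, ?_⟩
  · obtain ⟨x, hx, rfl⟩ := Finset.mem_image.mp hy
    exact ((Set.Finite.mem_toFinset _).mp hx).1.map (K.val.restrictScalars ℤ)
  -- outside `Y` some conjugate has `|a_p|² > c`; Rankin's bound for all conjugates
  set S : Finset Nat.Primes :=
    (27 * N).primeFactors.preimage Subtype.val Subtype.val_injective.injOn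
  have hkey : ∀ᶠ s in 𝓝[>] (1 : ℝ), primeSum (outInd f Y) s ≤
      (r * (-Real.log (s - 1)) + ∑ τ, B τ) / c + S.card := by
    filter_upwards [self_mem_nhdsWithin,
      nhdsWithin_le_nhds (eventually_lt_nhds (show (1 : ℝ) < 2 by norm_num))] with s hs hs2
    rw [primeSum]
    refine tsum_le_of_sum_le' ?_ fun P => ?_
    · have hL : 0 ≤ -Real.log (s - 1) :=
        neg_nonneg.mpr (Real.log_nonpos (sub_nonneg.mpr (Set.mem_Ioi.mp hs).le) (by linarith))
      have hsum : 0 ≤ r * (-Real.log (s - 1)) + ∑ τ, B τ := by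
        have h := fun τ => hB τ s hs hs2 ∅ (by simp)
        simp only [Finset.sum_empty] at h
        calc (0 : ℝ) ≤ ∑ τ : K →+* ℂ, (-Real.log (s - 1) + B τ) := Finset.sum_nonneg fun τ _ => h τ
          _ = _ := by rw [Finset.sum_add_distrib, Finset.sum_const, Finset.card_univ, nsmul_eq_mul]
      positivity
    set P1 : Finset Nat.Primes := P.filter fun p => ¬ (p : ℕ) ∣ 27 * N
    have hP1 : ∀ p ∈ P1, ¬ (p : ℕ) ∣ 27 * N := fun p hp => (Finset.mem_filter.mp hp).2
    have hterm : ∀ p : Nat.Primes, ¬ (p : ℕ) ∣ 27 * N →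
        c * (outInd f Y p * ((p : ℕ) : ℝ) ^ (-s)) ≤
          ∑ τ, ‖qCoeff (f' τ) (p : ℕ)‖ ^ 2 * ((p : ℕ) : ℝ) ^ (-s) := fun p hp => by
      have hpN : ¬ (p : ℕ) ∣ N := fun h => hp (h.mul_left 27)
      have hpow : (0 : ℝ) ≤ ((p : ℕ) : ℝ) ^ (-s) := Real.rpow_nonneg (Nat.cast_nonneg _) _
      rw [← Finset.sum_mul, ← mul_assoc]
      refine mul_le_mul_of_nonneg_right ?_ hpow
      unfold outInd
      split_ifs with h
      · rw [mul_one]
        obtain ⟨τ, hτ⟩ : ∃ τ : K →+* ℂ, Real.sqrt c < ‖qCoeff (f' τ) (p : ℕ)‖ := by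
          by_contra hne
          push Not at hne
          refine h.2 (Finset.mem_image.mpr ⟨⟨_, haK p p.2 hpN⟩, (Set.Finite.mem_toFinset _).mpr
            ⟨?_, fun τ => ?_⟩, rfl⟩)
          · exact (isIntegral_algHom_iff (K.val.restrictScalars ℤ) Subtype.val_injective).mp
              (hf.isIntegral p.2 hpN)
          · rw [← hσ τ _ (haK p p.2 hpN) (hf.mem_QbarC p.2 hpN), ← hf'a τ p p.2 hpN]
            exact hne τ
        refine le_trans ?_ (Finset.single_le_sum (f := fun τ => ‖qCoeff (f' τ) (p : ℕ)‖ ^ 2)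
          (fun i _ => by positivity) (Finset.mem_univ τ))
        calc c = Real.sqrt c ^ 2 := (Real.sq_sqrt hcpos.le).symm
          _ ≤ _ := pow_le_pow_left₀ (Real.sqrt_nonneg c) hτ.le 2
      · rw [mul_zero]
        positivity
    rw [← Finset.sum_filter_add_sum_filter_not P (fun p : Nat.Primes => ¬ (p : ℕ) ∣ 27 * N)]
    refine add_le_add ?_ ?_
    · rw [le_div_iff₀' hcpos, Finset.mul_sum]
      refine (Finset.sum_le_sum fun p hp => hterm p (hP1 p hp)).trans ?_
      rw [Finset.sum_comm]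
      refine (Finset.sum_le_sum fun τ _ => hB τ s hs hs2 P1 hP1).trans ?_
      rw [Finset.sum_add_distrib, Finset.sum_const, Finset.card_univ, nsmul_eq_mul]
    · refine (Finset.sum_le_card_nsmul _ _ 1 fun p _ => ?_).trans ?_
      · have hp : (0 : ℝ) ≤ ((p : ℕ) : ℝ) ^ (-s) := Real.rpow_nonneg (Nat.cast_nonneg _) _
        have hp1 : ((p : ℕ) : ℝ) ^ (-s) ≤ 1 :=
          Real.rpow_le_one_of_one_le_of_nonpos (by exact_mod_cast p.2.one_le)
            (by linarith [Set.mem_Ioi.mp hs])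
        calc outInd f Y p * ((p : ℕ) : ℝ) ^ (-s) ≤ 1 * ((p : ℕ) : ℝ) ^ (-s) :=
              mul_le_mul_of_nonneg_right ((le_abs_self _).trans (abs_outInd_le Y p)) hp
          _ ≤ 1 := by rw [one_mul]; exact hp1
      · rw [nsmul_eq_mul, mul_one, Nat.cast_le]
        refine Finset.card_le_card fun p hp => ?_
        refine Finset.mem_preimage.mpr (Nat.mem_primeFactors.mpr ?_)
        exact ⟨p.2, not_not.mp (Finset.mem_filter.mp hp).2, NeZero.ne _⟩
  filter_upwards [hkey, tendsto_negLog.eventually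
    (eventually_ge_atTop ((|∑ τ, B τ| / c + S.card) * (2 / η)))] with s h1 h2
  refine h1.trans ?_
  set Lg := -Real.log (s - 1)
  have h3 : |∑ τ, B τ| / c + S.card ≤ η / 2 * Lg := by
    calc |∑ τ, B τ| / c + S.card = η / 2 * ((|∑ τ, B τ| / c + S.card) * (2 / η)) := by field_simp
      _ ≤ η / 2 * Lg := mul_le_mul_of_nonneg_left h2 (by positivity)
  have hL : 0 ≤ Lg := by
    have : 0 ≤ |∑ τ, B τ| / c + S.card := by positivity
    nlinarith
  have h4 : r / c ≤ η / 2 := by
    rw [hc, div_div_eq_mul_div, div_le_iff₀ (by positivity)]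
    nlinarith
  rw [add_div, mul_div_right_comm]
  have h5 : (∑ τ, B τ) / c ≤ |∑ τ, B τ| / c := div_le_div_of_nonneg_right (le_abs_self _) hcpos.le
  nlinarith

end Fermat.DS

end
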