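import Fermat.Agent.DS.Cheb.Main
import Fermat.Agent.CFT.Density.Places

/-!
# Frobenius elements of representations of finite level

By Chebotarev: a lower bound for the primes with Frobenius in a set (`eventually_le_repInd`), and
every element of the image is a Frobenius (`exists_frobenius`).
-/

set_option autoImplicit false

noncomputable section

open Filter Topology

namespace Fermat.DS

open Fermat.CFT

local notation "ℚbar" => AlgebraicClosure ℚ
local notation "Γℚ" => (AlgebraicClosure ℚ ≃ₐ[ℚ] AlgebraicClosure ℚ)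

variable {M : Type} [Group M]

/-- A representation of finite level factors through a finite Galois group. -/
theorem exists_factor_level (ρ : Γℚ →* M) (hρ : GaloisFactorsThroughFiniteLevel ρ) :
    ∃ (L : IntermediateField ℚ ℚbar) (_ : FiniteDimensional ℚ L) (_ : Normal ℚ L)
      (φ : (L ≃ₐ[ℚ] L) →* M), ∀ σ, φ (AlgEquiv.restrictNormalHom L σ) = ρ σ := by
  obtain ⟨L0, hL0, h0⟩ := hρ
  have := hL0
  obtain ⟨L, hLf, hLn, hLle⟩ := exists_normal_fixingSubgroup_le (isOpen_ker_of_forall ρ L0 h0)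
  have := hLf
  have := hLn
  have hsurj : Function.Surjective (AlgEquiv.restrictNormalHom (F := ℚ) (K₁ := ℚbar) L) :=
    AlgEquiv.restrictNormalHom_surjective ℚbar
  have hle : (AlgEquiv.restrictNormalHom (F := ℚ) (K₁ := ℚbar) L).ker ≤ ρ.ker := fun σ hσ =>
    hLle ((restrict_eq_one_iff L σ).mp hσ)
  exact ⟨L, hLf, hLn, (AlgEquiv.restrictNormalHom L).liftOfSurjective hsurj ⟨ρ, hle⟩,
    fun σ => (AlgEquiv.restrictNormalHom L).liftOfRightInverse_comp_apply _ _ ⟨ρ, hle⟩ σ⟩

open Classical in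
/-- `1` at the primes having a Frobenius element whose image satisfies `P`. -/
def repInd (ρ : Γℚ →* M) (P : M → Prop) (q : Nat.Primes) : ℝ :=
  if ∃ (A : ValuationSubring ℚbar) (σ : Γℚ), A.LiesOverPrime (q : ℕ) ∧
      A.IsFrobeniusAt σ (q : ℕ) ∧ P (ρ σ)
  then 1 else 0

/-- The indicator is bounded by one. -/
theorem abs_repInd_le (ρ : Γℚ →* M) (P : M → Prop) (q : Nat.Primes) : |repInd ρ P q| ≤ 1 := by
  unfold repInd
  split_ifs <;> norm_num

/-- A series over primes with terms bounded by one and nonpositive outside a finite set is at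
most the size of that set. -/
theorem primeSum_le_card {g : Nat.Primes → ℝ} (T : Finset Nat.Primes) (h1 : ∀ q, |g q| ≤ 1)
    (h0 : ∀ q ∉ T, g q ≤ 0) {s : ℝ} (hs : 1 < s) : primeSum g s ≤ T.card := by
  classical
  have hle : ∀ q : Nat.Primes, g q * (q : ℝ) ^ (-s) ≤ if q ∈ T then (1 : ℝ) else 0 := fun q => by
    have hp : (0 : ℝ) ≤ (q : ℝ) ^ (-s) := Real.rpow_nonneg (Nat.cast_nonneg _) _
    split_ifs with hq
    · have hp1 : (q : ℝ) ^ (-s) ≤ 1 :=
        Real.rpow_le_one_of_one_le_of_nonpos (by exact_mod_cast q.2.one_le) (by linarith)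
      calc g q * (q : ℝ) ^ (-s) ≤ 1 * (q : ℝ) ^ (-s) :=
            mul_le_mul_of_nonneg_right ((le_abs_self _).trans (h1 q)) hp
        _ ≤ 1 := by rw [one_mul]; exact hp1
    · exact mul_nonpos_of_nonpos_of_nonneg (h0 q hq) hp
  refine ((summable_primeSum h1 hs).tsum_le_tsum hle
    (summable_of_ne_finset_zero (s := T) fun q hq => if_neg hq)).trans ?_
  rw [tsum_eq_sum (s := T) fun q hq => if_neg hq, Finset.sum_congr rfl fun q hq => if_pos hq,
    Finset.sum_const, nsmul_eq_mul, mul_one]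

/-- The series over primes is monotone in bounded coefficients. -/
theorem primeSum_mono {g g' : Nat.Primes → ℝ} {B B' : ℝ} (hB : ∀ q, |g q| ≤ B)
    (hB' : ∀ q, |g' q| ≤ B') (h : ∀ q, g q ≤ g' q) {s : ℝ} (hs : 1 < s) :
    primeSum g s ≤ primeSum g' s :=
  (summable_primeSum hB hs).tsum_le_tsum
    (fun q => mul_le_mul_of_nonneg_right (h q) (Real.rpow_nonneg (Nat.cast_nonneg _) _))
    (summable_primeSum hB' hs)

/-- The elements mapped into `P` number the elements of the image in `P` times the order of the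
kernel. -/
theorem natCard_preimage {G H : Type*} [Group G] [Group H] (φ : G →* H) (P : H → Prop) :
    Nat.card {g : G // P (φ g)} = Nat.card {h : φ.range // P h.1} * Nat.card φ.ker := by
  classical
  rw [← Nat.card_prod]
  let sec : φ.range → G := Function.surjInv φ.rangeRestrict_surjective
  have hsec : ∀ h : φ.range, φ (sec h) = h.1 := fun h =>
    congrArg Subtype.val (Function.surjInv_eq φ.rangeRestrict_surjective h)
  refine Nat.card_congr
    { toFun := fun g => (⟨⟨φ g.1, g.1, rfl⟩, g.2⟩, ⟨(sec ⟨φ g.1, g.1, rfl⟩)⁻¹ * g.1, by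
        rw [MonoidHom.mem_ker, map_mul, map_inv, hsec, inv_mul_cancel]⟩)
      invFun := fun x => ⟨sec x.1.1 * x.2.1, by
        rw [map_mul, hsec, show φ x.2.1 = 1 from x.2.2, mul_one]; exact x.1.2⟩
      left_inv := fun g => Subtype.ext (mul_inv_cancel_left _ _)
      right_inv := ?_ }
  rintro ⟨⟨h, hh⟩, k⟩
  have e : φ (sec h * k.1) = h.1 := by
    rw [map_mul, hsec, show φ k.1 = 1 from k.2, mul_one]
  have e' : (⟨φ (sec h * k.1), _, rfl⟩ : φ.range) = h := Subtype.ext e
  refine Prod.ext (Subtype.ext e') (Subtype.ext ?_)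
  change (sec ⟨φ (sec h * k.1), _⟩)⁻¹ * (sec h * k.1) = k.1
  rw [e', inv_mul_cancel_left]

/-- **Lower bound for the primes with Frobenius in a set stable under conjugation.** -/
theorem eventually_le_repInd (ρ : Γℚ →* M) (hρ : GaloisFactorsThroughFiniteLevel ρ) (P : M → Prop)
    (hP : ∀ g x, P x → P (g * x * g⁻¹)) {c : ℝ}
    (hc : c < (Nat.card {x : ρ.range // P x.1} : ℝ) / (Nat.card ρ.range : ℝ)) :
    ∀ᶠ s in 𝓝[>] (1 : ℝ), c * (-Real.log (s - 1)) ≤ primeSum (repInd ρ P) s := by
  classical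
  -- the representation factors through a finite Galois group
  obtain ⟨L, hLf, hLn, φ, hφ⟩ := exists_factor_level ρ hρ
  have := hLf
  have := hLn
  have hrange : φ.range = ρ.range := by
    refine le_antisymm ?_ ?_
    · rintro _ ⟨g, rfl⟩
      obtain ⟨σ, rfl⟩ := AlgEquiv.restrictNormalHom_surjective (F := ℚ) (K₁ := L) ℚbar g
      exact ⟨σ, (hφ σ).symm⟩
    · rintro _ ⟨σ, rfl⟩
      exact ⟨_, hφ σ⟩
  set C : Set (L ≃ₐ[ℚ] L) := {g | P (φ g)}
  have hC : ∀ g, ∀ x ∈ C, g * x * g⁻¹ ∈ C := fun g x hx => by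
    change P (φ (g * x * g⁻¹))
    rw [map_mul, map_mul, map_inv]
    exact hP _ _ hx
  -- there the proportion of the set is the same
  have hcard : (Nat.card C : ℝ) / (Nat.card (L ≃ₐ[ℚ] L) : ℝ) =
      (Nat.card {x : ρ.range // P x.1} : ℝ) / (Nat.card ρ.range : ℝ) := by
    have h1 : Nat.card C = Nat.card {x : φ.range // P x.1} * Nat.card φ.ker := natCard_preimage φ P
    have h2 : Nat.card (L ≃ₐ[ℚ] L) = Nat.card φ.range * Nat.card φ.ker := by
      rw [← Subgroup.index_ker, Subgroup.index_mul_card]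
    rw [h1, h2, Nat.cast_mul, Nat.cast_mul,
      mul_div_mul_right _ _ (Nat.cast_ne_zero.mpr Nat.card_pos.ne'), hrange]
  -- Chebotarev, then compare the indicators prime by prime
  have h := chebStatement L C hC c (hcard ▸ hc)
  filter_upwards [h, self_mem_nhdsWithin] with s hs1 hs
  refine hs1.trans (primeSum_mono (B := 1) (B' := 1) (fun q => ?_) (abs_repInd_le ρ P)
    (fun q => ?_) hs)
  · unfold frobInd; split_ifs <;> norm_num
  · unfold frobInd repInd
    split_ifs with h1 h2
    · exact le_rfl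
    · obtain ⟨A, σ, hA, hσ, hσC⟩ := h1
      exact absurd ⟨A, σ, hA, hσ, hφ σ ▸ hσC⟩ h2
    · exact zero_le_one
    · exact le_rfl

/-- The image of a representation of finite level is finite. -/
theorem finite_range (ρ : Γℚ →* M) (hρ : GaloisFactorsThroughFiniteLevel ρ) : Finite ρ.range := by
  obtain ⟨L, hLf, hLn, φ, hφ⟩ := exists_factor_level ρ hρ
  have := hLf
  exact ((Set.finite_range φ).subset (by rintro _ ⟨σ, rfl⟩; exact ⟨_, hφ σ⟩)).to_subtype

/-- **Every element of the image is conjugate to the image of a Frobenius at a prime outside a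
given finite set.** -/
theorem exists_frobenius (ρ : Γℚ →* M) (hρ : GaloisFactorsThroughFiniteLevel ρ) (σ : Γℚ)
    (T : Finset ℕ) :
    ∃ p : ℕ, p.Prime ∧ p ∉ T ∧ ∃ A : ValuationSubring ℚbar, A.LiesOverPrime p ∧
      ∃ φ : Γℚ, A.IsFrobeniusAt φ p ∧ ∃ g : M, ρ φ = g * ρ σ * g⁻¹ := by
  classical
  have := finite_range ρ hρ
  let P : M → Prop := fun x => ∃ g : M, x = g * ρ σ * g⁻¹
  by_contra hne
  push Not at hne
  have hpos : (0 : ℝ) < (Nat.card {x : ρ.range // P x.1} : ℝ) / (Nat.card ρ.range : ℝ) := by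
    have : Nonempty {x : ρ.range // P x.1} := ⟨⟨⟨ρ σ, σ, rfl⟩, 1, by simp⟩⟩
    exact div_pos (Nat.cast_pos.mpr Nat.card_pos) (Nat.cast_pos.mpr Nat.card_pos)
  obtain ⟨c, hc0, hc⟩ := exists_between hpos
  have h := eventually_le_repInd ρ hρ P
    (fun g x ⟨g', e⟩ => ⟨g * g', by rw [e, mul_inv_rev]; group⟩) hc
  set T' : Finset Nat.Primes := T.preimage Subtype.val Subtype.val_injective.injOn
  have hbig := tendsto_negLog.eventually (eventually_gt_atTop ((T'.card : ℝ) / c))
  obtain ⟨s, hs1, hs2, hs⟩ := (h.and (hbig.and self_mem_nhdsWithin)).exists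
  have hle : primeSum (repInd ρ P) s ≤ T'.card := by
    refine primeSum_le_card T' (abs_repInd_le ρ P) (fun q hq => ?_) hs
    unfold repInd
    rw [if_neg]
    rintro ⟨A, φ, hA, hφ, g, e⟩
    exact hne (q : ℕ) q.2 (fun h => hq (Finset.mem_preimage.mpr h)) A hA φ hφ g e
  rw [div_lt_iff₀ hc0] at hs2
  linarith

end Fermat.DS

end
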